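import Fermat.Agent.S25.DefsDict
import Fermat.Agent.S25.H205.GDCBasic

/-!
# S25 / DICTDEG (helper327): hypotheses of the direction `FibrewiseAlgEquivZero ⇒ Deg0`,
and the reflexivity of `CurveGD.IsBC`
-/

set_option autoImplicit false
set_option linter.style.haveILetI false
set_option linter.unusedSectionVars false

universe u

open CategoryTheory CategoryTheory.Limits AlgebraicGeometry AlgebraicGeometry.RelPicard
  NeronModelInfra GoodReductionJacobian
open scoped TensorProduct

namespace Fermat.Agent.S25.H327

noncomputable section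

section GDC

/-- A bijective linear map is a base-change map along a surjective ring homomorphism. -/
theorem isBaseChange_of_bijective_of_surjective {R S M N : Type u} [CommRing R] [CommRing S]
    [Algebra R S] [AddCommGroup M] [Module R M] [AddCommGroup N] [Module R N] [Module S N]
    [IsScalarTower R S N] (f : M →ₗ[R] N) (hf : Function.Bijective f)
    (hS : Function.Surjective (algebraMap R S)) : IsBaseChange S f := by
  apply IsBaseChange.of_lift_unique
  intro Q _ _ _ _ g
  let e : M ≃ₗ[R] N := LinearEquiv.ofBijective f hf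
  have he : ∀ m, e.symm (f m) = m := fun m => e.symm_apply_apply m
  refine ⟨{ toFun := fun n => g (e.symm n)
            map_add' := fun a b => by rw [map_add, map_add]
            map_smul' := ?_ }, ?_, ?_⟩
  · intro s n
    obtain ⟨r, rfl⟩ := hS s
    simp only [RingHom.id_apply]
    rw [algebraMap_smul, algebraMap_smul, map_smul, map_smul]
  · ext m
    change g (e.symm (f m)) = g m
    rw [he]
  · intro g' hg'
    ext n
    obtain ⟨m, rfl⟩ := hf.2 n
    have := congrFun (congrArg DFunLike.coe hg') m
    change g' (f m) = g (e.symm (f m))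
    rw [he]
    exact this

/-- A bijective semilinear map over a surjective ring homomorphism is a semilinear base
change. -/
theorem isSemilinearBaseChange_of_bijective {R R' : Type u} [CommRing R] [CommRing R']
    (ρ : R →+* R') (hρ : Function.Surjective ρ) {N N' : Type u} [AddCommGroup N] [Module R N]
    [AddCommGroup N'] [Module R' N'] (b : N →ₛₗ[ρ] N') (hb : Function.Bijective b) :
    IsSemilinearBaseChange ρ b := by
  unfold IsSemilinearBaseChange
  letI : Algebra R R' := ρ.toAlgebra
  letI : Module R N' := Module.compHom N' ρ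
  haveI : IsScalarTower R R' N' := ⟨fun r r' n => by
    change (ρ r * r') • n = ρ r • (r' • n); rw [mul_smul]⟩
  exact isBaseChange_of_bijective_of_surjective _ hb hρ

variable {R : Type u} [CommRing R] {N : Type u} [AddCommGroup N] [Module R N]

/-- The identity as a semilinear map over a ring homomorphism which is the identity. -/
def semilinearId (ρ : R →+* R) (hρ : ∀ r, ρ r = r) : N →ₛₗ[ρ] N where
  toFun := fun n => n
  map_add' := fun _ _ => rfl
  map_smul' := fun r n => by
    change r • n = ρ r • n
    rw [hρ]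

theorem isSemilinearBaseChange_semilinearId (ρ : R →+* R) (hρ : ∀ r, ρ r = r) :
    IsSemilinearBaseChange ρ (semilinearId (N := N) ρ hρ) :=
  isSemilinearBaseChange_of_bijective ρ (fun r => ⟨r, hρ r⟩) _
    ⟨fun _ _ h => h, fun n => ⟨n, rfl⟩⟩

variable {k : Type u} [Field k]

theorem tensorMapLeft_id_apply (A B : Type u) [CommRing A] [Algebra k A] [CommRing B]
    [Algebra k B] (r : A ⊗[k] B) : tensorMapLeft k (AlgHom.id k A) B r = r := by
  change (Algebra.TensorProduct.map (AlgHom.id k A) (AlgHom.id k B)) r = r
  rw [Algebra.TensorProduct.map_id]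
  rfl

/-- Every gluing datum is a base change of itself along the identity. -/
theorem CurveGD.isBC_id {B₀ B₁ B₀₁ : Type u} [CommRing B₀] [CommRing B₁] [CommRing B₀₁]
    [Algebra k B₀] [Algebra k B₁] [Algebra k B₀₁] [Algebra B₀ B₀₁] [Algebra B₁ B₀₁]
    [IsScalarTower k B₀ B₀₁] [IsScalarTower k B₁ B₀₁]
    {A : Type u} [CommRing A] [Algebra k A] (G : CurveGD k B₀ B₁ B₀₁ A) :
    CurveGD.IsBC (AlgHom.id k A) G G :=
  ⟨{ b₀ := semilinearId _ (tensorMapLeft_id_apply A B₀)
     b₁ := semilinearId _ (tensorMapLeft_id_apply A B₁)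
     b₀₁ := semilinearId _ (tensorMapLeft_id_apply A B₀₁)
     comm₀ := fun _ => rfl
     comm₁ := fun _ => rfl
     isBaseChange₀ := isSemilinearBaseChange_semilinearId _ _
     isBaseChange₁ := isSemilinearBaseChange_semilinearId _ _
     isBaseChange₀₁ := isSemilinearBaseChange_semilinearId _ _ }⟩

end GDC

variable {k : Type u} [Field k] {C : Scheme.{u}} {c : C ⟶ Spec (CommRingCat.of k)}
  {ε : SchemeHomOver (𝟙 (Spec (CommRingCat.of k))) c}

/-- DEGREE fact (blueprint D2 + D9): the degree of the fibres of a gluing datum over `A` is a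
locally constant function on `Spec A`. -/
def DegLocallyConstant (Ch : ChartOf c ε) : Prop :=
  ∀ (A : Type u) [CommRing A] [Algebra k A] (G : CurveGD k Ch.B₀ Ch.B₁ Ch.B₀₁ A),
    ∃ d : PrimeSpectrum A → ℤ, IsLocallyConstant d ∧
      ∀ (K : Type u) [Field K] [Algebra k K] (φ : A →ₐ[k] K)
        (G' : CurveGD k Ch.B₀ Ch.B₁ Ch.B₀₁ K), CurveGD.IsBC φ G G' →
        G'.degree = d ⟨RingHom.ker φ.toRingHom, RingHom.ker_isPrime _⟩

/-- DICT fact: a gluing datum of sections of the unit bundle over a field has degree `0`
(follows from `Corr` of the unit bundle with the unit datum, `DictIso` and invariance of the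
degree under isomorphism). -/
def UnitDegZero (Ch : ChartOf c ε) : Prop :=
  ∀ (K : Type u) [Field K] [Algebra k K] (G : CurveGD k Ch.B₀ Ch.B₁ Ch.B₀₁ K),
    Corr Ch K (RigidifiedLineBundle.unit (c := c) (ε := ε) (specStr k K)).L G → G.degree = 0

/-- Over a field, the degree is invariant under isomorphism (from `DegLocallyConstant`). -/
theorem degree_eq_of_isIso {Ch : ChartOf c ε} (hLC : DegLocallyConstant Ch)
    {K : Type u} [Field K] [Algebra k K] {G G' : CurveGD k Ch.B₀ Ch.B₁ Ch.B₀₁ K}
    (h : G.IsIso G') : G.degree = G'.degree := by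
  obtain ⟨d, -, hd⟩ := hLC K G
  rw [hd K (AlgHom.id k K) G (CurveGD.isBC_id G),
    hd K (AlgHom.id k K) G' (H205.isBC_of_isIso_right (CurveGD.isBC_id G) h)]

/-- The degree is invariant under extension of the base field (from `DegLocallyConstant`). -/
theorem degree_eq_of_isBC_field {Ch : ChartOf c ε} (hLC : DegLocallyConstant Ch)
    {K K' : Type u} [Field K] [Algebra k K] [Field K'] [Algebra k K'] (φ : K →ₐ[k] K')
    {G : CurveGD k Ch.B₀ Ch.B₁ Ch.B₀₁ K} {G' : CurveGD k Ch.B₀ Ch.B₁ Ch.B₀₁ K'}
    (h : CurveGD.IsBC φ G G') : G'.degree = G.degree := by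
  obtain ⟨d, -, hd⟩ := hLC K G
  rw [hd K' φ G' h, hd K (AlgHom.id k K) G (CurveGD.isBC_id G)]
  congr 1
  apply PrimeSpectrum.ext
  change RingHom.ker φ.toRingHom = RingHom.ker (AlgHom.id k K).toRingHom
  rw [(RingHom.injective_iff_ker_eq_bot _).mp φ.toRingHom.injective,
    (RingHom.injective_iff_ker_eq_bot _).mp (AlgHom.id k K).toRingHom.injective]

end

end Fermat.Agent.S25.H327
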