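import Fermat.Agent.S25.H11.ACLeaves
import Fermat.Agent.S25.H791.ACStage1

/-!
# S25 / ALGCHARTS, leaf PT-BC (helper327): the point conditions are stable under base change

`pointCond_bc` : exact statement of `coord/S25-ALGCHARTS-skeleton.lean` (squad-lead helper11);
`leaf_pointBC : H11.Leaf.PointBC k B₀ B₁ B₀₁`.

Built on helper791's `BCEquivs` (`A' ⊗[A] Nᵢ ≃ Nᵢ'`).  The only non-formal point is that the
generator of `H⁰(G(nE₀ - Σq))` stays a generator after base change; this is right exactness of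
`A' ⊗[A] -` applied to `secq → sec → N₀ / I_q N₀ → 0` and `sec → N₀ × N₁ → N₀₁ → 0`.
-/

set_option autoImplicit false
set_option linter.style.haveILetI false
set_option linter.unusedSectionVars false
set_option linter.unusedVariables false

universe u

open scoped TensorProduct

namespace Fermat.Agent.S25.H327

open Fermat.Agent.S25 Fermat.Agent.S25.H11

section Core

variable {k : Type u} [Field k]
  {B₀ B₁ B₀₁ : Type u} [CommRing B₀] [CommRing B₁] [CommRing B₀₁]
  [Algebra k B₀] [Algebra k B₁] [Algebra k B₀₁] [Algebra B₀ B₀₁] [Algebra B₁ B₀₁]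
  [IsScalarTower k B₀ B₀₁] [IsScalarTower k B₁ B₀₁]
  {x : B₀} {y : B₁} {e : B₁ →ₐ[k] k}

section Exact

variable {A A' : Type u} [CommRing A] [CommRing A'] [Algebra A A']

/-- Right exactness: for a surjective `f`, the kernel of `f ⊗ A'` is the image of
`A' ⊗ ker f`. -/
theorem ker_baseChange_eq_range {M N : Type u} [AddCommGroup M] [Module A M]
    [AddCommGroup N] [Module A N] (f : M →ₗ[A] N) (hf : Function.Surjective f) :
    LinearMap.ker (f.baseChange A') =
      LinearMap.range ((LinearMap.ker f).subtype.baseChange A') := by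
  have hex : Function.Exact (LinearMap.ker f).subtype f := fun m => by
    constructor
    · intro hm
      exact ⟨⟨m, hm⟩, rfl⟩
    · rintro ⟨c, rfl⟩
      exact c.2
  have hex' := lTensor_exact A' hex hf
  ext t
  rw [LinearMap.mem_ker, LinearMap.mem_range]
  have h1 : (f.baseChange A' : A' ⊗[A] M → A' ⊗[A] N) = f.lTensor A' :=
    LinearMap.baseChange_eq_ltensor f
  have h2 : ((LinearMap.ker f).subtype.baseChange A' : A' ⊗[A] (LinearMap.ker f) → A' ⊗[A] M) =
      (LinearMap.ker f).subtype.lTensor A' :=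
    LinearMap.baseChange_eq_ltensor _
  rw [h1, h2]
  exact hex' t

end Exact

section BaseChange

variable {A A' : Type u} [CommRing A] [Algebra k A] [CommRing A'] [Algebra k A'] [Algebra A A']
  [IsScalarTower k A A']
  {ψ : A →ₐ[k] A'} {G : CurveGD k B₀ B₁ B₀₁ A} {G' : CurveGD k B₀ B₁ B₀₁ A'}
  {bc : GlueDatum.BaseChangeMaps (tensorMapLeft k ψ B₀) (tensorMapLeft k ψ B₁)
      (tensorMapLeft k ψ B₀₁) G G'}

/-- Scalars of `A'` act on `N₀'` through `A' ⊗ B₀`. -/
theorem smul_eq_tmul_smul₀ (G' : CurveGD k B₀ B₁ B₀₁ A') (a : A') (n : G'.N₀) :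
    a • n = (a ⊗ₜ[k] (1 : B₀)) • n := by
  rw [← algebraMap_smul (A' ⊗[k] B₀) a n, Algebra.TensorProduct.algebraMap_apply]
  rfl

/-- Scalars of `A'` act on `N₁'` through `A' ⊗ B₁`. -/
theorem smul_eq_tmul_smul₁ (G' : CurveGD k B₀ B₁ B₀₁ A') (a : A') (n : G'.N₁) :
    a • n = (a ⊗ₜ[k] (1 : B₁)) • n := by
  rw [← algebraMap_smul (A' ⊗[k] B₁) a n, Algebra.TensorProduct.algebraMap_apply]
  rfl

/-- Every element of `N₀'` is an `A'`-combination of base-changed elements: induction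
principle. -/
theorem BCEquivs_induction₀ (E : H791.BCEquivs ψ bc) {P : G'.N₀ → Prop}
    (h0 : P 0) (hadd : ∀ a b, P a → P b → P (a + b))
    (hsmul : ∀ (s : A') (n : G.N₀), P (s • bc.b₀ n)) (n' : G'.N₀) : P n' := by
  obtain ⟨t, rfl⟩ := E.E₀.surjective n'
  induction t using TensorProduct.induction_on with
  | zero => rw [map_zero]; exact h0
  | add t u ht hu => rw [map_add]; exact hadd _ _ ht hu
  | tmul s n => rw [E.E₀_tmul]; exact hsmul s n

theorem BCEquivs_induction₁ (E : H791.BCEquivs ψ bc) {P : G'.N₁ → Prop}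
    (h0 : P 0) (hadd : ∀ a b, P a → P b → P (a + b))
    (hsmul : ∀ (s : A') (n : G.N₁), P (s • bc.b₁ n)) (n' : G'.N₁) : P n' := by
  obtain ⟨t, rfl⟩ := E.E₁.surjective n'
  induction t using TensorProduct.induction_on with
  | zero => rw [map_zero]; exact h0
  | add t u ht hu => rw [map_add]; exact hadd _ _ ht hu
  | tmul s n => rw [E.E₁_tmul]; exact hsmul s n

/-- Base change maps send `J • N₀` into `(J · R₀') • N₀'`. -/
theorem b₀_mem_map_smul_top (J : Ideal (A ⊗[k] B₀)) {v : G.N₀}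
    (hv : v ∈ J • (⊤ : Submodule (A ⊗[k] B₀) G.N₀)) :
    bc.b₀ v ∈ J.map (tensorMapLeft k ψ B₀) • (⊤ : Submodule (A' ⊗[k] B₀) G'.N₀) := by
  refine Submodule.smul_induction_on hv (fun r hr n _ => ?_) (fun a b ha hb => ?_)
  · rw [bc.b₀.map_smulₛₗ]
    exact Submodule.smul_mem_smul (Ideal.mem_map_of_mem _ hr) Submodule.mem_top
  · rw [map_add]
    exact Submodule.add_mem _ ha hb

/-- The divisor of a base-changed section is the base change of the divisor. -/
theorem span_b₀_eq (E : H791.BCEquivs ψ bc) (J : Ideal (A ⊗[k] B₀)) {v : G.N₀}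
    (hv : Submodule.span (A ⊗[k] B₀) {v} = J • (⊤ : Submodule (A ⊗[k] B₀) G.N₀)) :
    Submodule.span (A' ⊗[k] B₀) {bc.b₀ v} =
      J.map (tensorMapLeft k ψ B₀) • (⊤ : Submodule (A' ⊗[k] B₀) G'.N₀) := by
  apply le_antisymm
  · rw [Submodule.span_le, Set.singleton_subset_iff]
    apply b₀_mem_map_smul_top J
    rw [← hv]
    exact Submodule.mem_span_singleton_self v
  · have key : ∀ r' ∈ J.map (tensorMapLeft k ψ B₀), ∀ n' : G'.N₀,
        r' • n' ∈ Submodule.span (A' ⊗[k] B₀) {bc.b₀ v} := by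
      intro r' hr'
      induction hr' using Submodule.span_induction with
      | mem r' hr' =>
        obtain ⟨r, hr, rfl⟩ := hr'
        intro n'
        refine BCEquivs_induction₀ E (P := fun n' => tensorMapLeft k ψ B₀ r • n' ∈
          Submodule.span (A' ⊗[k] B₀) {bc.b₀ v}) ?_ ?_ ?_ n'
        · rw [smul_zero]; exact Submodule.zero_mem _
        · intro a b ha hb
          rw [smul_add]; exact Submodule.add_mem _ ha hb
        · intro s n
          have hrn : r • n ∈ Submodule.span (A ⊗[k] B₀) {v} := by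
            rw [hv]
            exact Submodule.smul_mem_smul hr Submodule.mem_top
          obtain ⟨c, hc⟩ := Submodule.mem_span_singleton.mp hrn
          rw [smul_comm, ← bc.b₀.map_smulₛₗ, ← hc, bc.b₀.map_smulₛₗ, smul_eq_tmul_smul₀]
          exact Submodule.smul_mem _ _
            (Submodule.smul_mem _ _ (Submodule.mem_span_singleton_self _))
      | zero => intro n'; rw [zero_smul]; exact Submodule.zero_mem _
      | add a b _ _ ha hb => intro n'; rw [add_smul]; exact Submodule.add_mem _ (ha n') (hb n')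
      | smul c a _ ha =>
        intro n'
        rw [smul_eq_mul, mul_comm, mul_smul]
        exact ha (c • n')
    rw [Submodule.smul_le]
    intro r' hr' n' _
    exact key r' hr' n'

/-- `GenModY` is stable under base change. -/
theorem genModY_bc (E : H791.BCEquivs ψ bc) (y : B₁) {b : G.N₁} (hb : GenModY y G b) :
    GenModY y G' (bc.b₁ b) := by
  intro c'
  refine BCEquivs_induction₁ E (P := fun c' => ∃ r : A' ⊗[k] B₁,
    c' - r • bc.b₁ b ∈
      (Ideal.span {yElt k A' y} • ⊤ : Submodule (A' ⊗[k] B₁) G'.N₁)) ?_ ?_ ?_ c'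
  · exact ⟨0, by rw [zero_smul, sub_zero]; exact Submodule.zero_mem _⟩
  · rintro a₁ a₂ ⟨r₁, h₁⟩ ⟨r₂, h₂⟩
    refine ⟨r₁ + r₂, ?_⟩
    have : a₁ + a₂ - (r₁ + r₂) • bc.b₁ b = (a₁ - r₁ • bc.b₁ b) + (a₂ - r₂ • bc.b₁ b) := by
      rw [add_smul]; abel
    rw [this]
    exact Submodule.add_mem _ h₁ h₂
  · intro s c
    obtain ⟨r, hr⟩ := hb c
    refine ⟨(s ⊗ₜ[k] (1 : B₁)) * tensorMapLeft k ψ B₁ r, ?_⟩
    have hmap : bc.b₁ (c - r • b) ∈
        (Ideal.span {yElt k A' y} • ⊤ : Submodule (A' ⊗[k] B₁) G'.N₁) := by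
      refine Submodule.smul_induction_on hr (fun r₀ hr₀ n _ => ?_) (fun a b ha hb => ?_)
      · rw [bc.b₁.map_smulₛₗ]
        refine Submodule.smul_mem_smul ?_ Submodule.mem_top
        obtain ⟨c₀, rfl⟩ := Ideal.mem_span_singleton'.mp hr₀
        rw [map_mul]
        have hy : tensorMapLeft k ψ B₁ (yElt k A y) = yElt k A' y := by
          simp [tensorMapLeft, yElt]
        rw [hy]
        exact Ideal.mul_mem_left _ _ (Ideal.subset_span rfl)
      · rw [map_add]
        exact Submodule.add_mem _ ha hb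
    have : s • bc.b₁ c - ((s ⊗ₜ[k] (1 : B₁)) * tensorMapLeft k ψ B₁ r) • bc.b₁ b =
        (s ⊗ₜ[k] (1 : B₁)) • bc.b₁ (c - r • b) := by
      rw [map_sub, bc.b₁.map_smulₛₗ, smul_sub, mul_smul, smul_eq_tmul_smul₁]
    rw [this]
    exact Submodule.smul_mem _ _ hmap

/-- Under `P1` for `G`, every section of `G'(nE₀)` vanishing on `Σ q` comes from
`A' ⊗ H⁰(G(nE₀ - Σq))`. -/
theorem mem_range_of_mem_secq (E : H791.BCEquivs ψ bc) (n : ℕ) {m : ℕ}
    (q : Fin m → (B₀ →ₐ[k] k)) (h1 : P1 x n q G) {t : G'.N₀ × G'.N₁}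
    (ht : t ∈ secq x n q G') :
    E.prod.symm t ∈ LinearMap.range ((secq x n q G).subtype.baseChange A') := by
  obtain ⟨hts, htv⟩ := mem_secq.mp ht
  -- step 1: `t` comes from `A' ⊗ sec`
  have hker : E.prod.symm t ∈ LinearMap.ker ((tcech x n G).baseChange A') := by
    rw [LinearMap.mem_ker]
    apply E.E₀₁.injective
    rw [← E.tcech_prod, LinearEquiv.apply_symm_apply, map_zero]
    exact hts
  rw [ker_baseChange_eq_range _ h1.1] at hker
  obtain ⟨u, hu⟩ := hker
  -- step 2: the evaluation `sec → N₀ / I_q N₀`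
  set W : Submodule A G.N₀ := (vanq q G).restrictScalars A with hW
  set ev : sec x n G →ₗ[A] G.N₀ ⧸ W :=
    W.mkQ ∘ₗ (LinearMap.fst A G.N₀ G.N₁) ∘ₗ (sec x n G).subtype with hev
  have hevs : Function.Surjective ev := by
    intro z
    obtain ⟨a, rfl⟩ := Submodule.Quotient.mk_surjective _ z
    obtain ⟨s, hs, hv⟩ := h1.2 a
    refine ⟨⟨s, hs⟩, ?_⟩
    show Submodule.Quotient.mk s.1 = Submodule.Quotient.mk a
    rw [Submodule.Quotient.eq]
    have : s.1 - a = -(a - s.1) := by abel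
    rw [this]
    exact W.neg_mem hv
  have hu0 : u ∈ LinearMap.ker (ev.baseChange A') := by
    have hfst : (LinearMap.fst A G.N₀ G.N₁).baseChange A' (E.prod.symm t) = E.E₀.symm t.1 := by
      apply E.E₀.injective
      rw [← E.prod_fst, LinearEquiv.apply_symm_apply, LinearEquiv.apply_symm_apply]
    rw [LinearMap.mem_ker, hev, LinearMap.baseChange_comp, LinearMap.baseChange_comp,
      LinearMap.comp_apply, LinearMap.comp_apply, hu, hfst]
    have := E.mem_range_of_mem_vanq q htv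
    rw [← H791.ker_mkQ_baseChange_eq] at this
    exact this
  rw [ker_baseChange_eq_range _ hevs] at hu0
  obtain ⟨w, hw⟩ := hu0
  -- the kernel of `ev` maps to `secq`
  have hle : ∀ c : LinearMap.ker ev, ((c : sec x n G) : G.N₀ × G.N₁) ∈ secq x n q G := by
    intro c
    refine mem_secq.mpr ⟨c.1.2, ?_⟩
    have hc : ev c.1 = 0 := c.2
    have hc' : Submodule.Quotient.mk (p := W) ((c : sec x n G) : G.N₀ × G.N₁).1 = 0 := hc
    rw [Submodule.Quotient.mk_eq_zero] at hc'
    exact hc'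
  let ι : LinearMap.ker ev →ₗ[A] secq x n q G :=
    LinearMap.codRestrict (secq x n q G)
      ((sec x n G).subtype ∘ₗ (LinearMap.ker ev).subtype) hle
  have hfac : (sec x n G).subtype ∘ₗ (LinearMap.ker ev).subtype =
      (secq x n q G).subtype ∘ₗ ι := by
    ext c <;> rfl
  refine ⟨ι.baseChange A' w, ?_⟩
  rw [← LinearMap.comp_apply, ← LinearMap.baseChange_comp, ← hfac, LinearMap.baseChange_comp,
    LinearMap.comp_apply, hw, hu]

/-- `IsGen` is stable under base change. -/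
theorem isGen_bc (E : H791.BCEquivs ψ bc) (n : ℕ) {m : ℕ}
    (q : Fin m → (B₀ →ₐ[k] k)) (h1 : P1 x n q G) {s : G.N₀ × G.N₁}
    (hs : IsGen x y n q G s) :
    IsGen x y n q G' ((bc.b₀ s.1, bc.b₁ s.2) : G'.N₀ × G'.N₁) := by
  have hmem : ((bc.b₀ s.1, bc.b₁ s.2) : G'.N₀ × G'.N₁) ∈ secq x n q G' :=
    mem_secq.mpr ⟨H791.BCEquivs.bc_mem_sec ψ bc x n (mem_secq.mp hs.mem).1,
      H791.BCEquivs.bc_mem_vanq ψ bc q (mem_secq.mp hs.mem).2⟩
  refine ⟨hmem, ?_, genModY_bc E y hs.gen⟩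
  intro t ht
  obtain ⟨w, hw⟩ := mem_range_of_mem_secq E n q h1 ht
  have key : ∀ w : A' ⊗[A] (secq x n q G),
      ∃ a : A', E.prod ((secq x n q G).subtype.baseChange A' w) =
        a • ((bc.b₀ s.1, bc.b₁ s.2) : G'.N₀ × G'.N₁) := by
    intro w
    induction w using TensorProduct.induction_on with
    | zero => exact ⟨0, by simp⟩
    | add w₁ w₂ h₁ h₂ =>
      obtain ⟨a₁, h₁⟩ := h₁
      obtain ⟨a₂, h₂⟩ := h₂
      exact ⟨a₁ + a₂, by rw [map_add, map_add, h₁, h₂, add_smul]⟩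
    | tmul a' c =>
      obtain ⟨a, ha⟩ := hs.span c.1 c.2
      refine ⟨a' * algebraMap A A' a, ?_⟩
      rw [LinearMap.baseChange_tmul, E.prod_tmul]
      have hc : ((secq x n q G).subtype c : G.N₀ × G.N₁) = a • s := ha
      rw [hc]
      have e₀ : bc.b₀ (a • s).1 = algebraMap A A' a • bc.b₀ s.1 := by
        have h := E.E₀_tmul 1 (a • s.1)
        have h2 : (1 : A') ⊗ₜ[A] (a • s.1) = (algebraMap A A' a) ⊗ₜ[A] s.1 := by
          rw [TensorProduct.tmul_smul, TensorProduct.smul_tmul', Algebra.smul_def, mul_one]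
        rw [h2, E.E₀_tmul, one_smul] at h
        exact h.symm
      have e₁ : bc.b₁ (a • s).2 = algebraMap A A' a • bc.b₁ s.2 := by
        have h := E.E₁_tmul 1 (a • s.2)
        have h2 : (1 : A') ⊗ₜ[A] (a • s.2) = (algebraMap A A' a) ⊗ₜ[A] s.2 := by
          rw [TensorProduct.tmul_smul, TensorProduct.smul_tmul', Algebra.smul_def, mul_one]
        rw [h2, E.E₁_tmul, one_smul] at h
        exact h.symm
      rw [e₀, e₁, smul_smul, smul_smul]
      rfl
  obtain ⟨a, ha⟩ := key w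
  refine ⟨a, ?_⟩
  rw [← ha, hw, LinearEquiv.apply_symm_apply]

end BaseChange

end Core

section Ideal

variable {k : Type u} [Field k] {B₀ : Type u} [CommRing B₀] [Algebra k B₀]
  {A A' : Type u} [CommRing A] [Algebra k A] [CommRing A'] [Algebra k A']

/-- Functoriality of the base change of ideals of `R ⊗ B₀`. -/
theorem map_bc_comp {R : Type u} [CommRing R] [Algebra k R] (ψ : A →ₐ[k] A') (φ₀ : R →ₐ[k] A)
    (I : Ideal (R ⊗[k] B₀)) :
    (I.map (H491.bc B₀ φ₀)).map (tensorMapLeft k ψ B₀) = I.map (H491.bc B₀ (ψ.comp φ₀)) := by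
  have hcomp : (tensorMapLeft k ψ B₀).comp (H491.bc B₀ φ₀ : R ⊗[k] B₀ →+* A ⊗[k] B₀) =
      (H491.bc B₀ (ψ.comp φ₀) : R ⊗[k] B₀ →+* A' ⊗[k] B₀) := by
    apply RingHom.ext
    intro z
    induction z using TensorProduct.induction_on with
    | zero => simp
    | add z w hz hw => rw [map_add, map_add, hz, hw]
    | tmul a b => simp [tensorMapLeft, H491.bc]
  have h1 : (I.map (H491.bc B₀ φ₀)).map (tensorMapLeft k ψ B₀) =
      I.map ((tensorMapLeft k ψ B₀).comp (H491.bc B₀ φ₀ : R ⊗[k] B₀ →+* A ⊗[k] B₀)) :=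
    Ideal.map_map _ _
  rw [h1, hcomp]
  rfl

/-- Base change of the ideal `I' · I_q` of a point of a chart. -/
theorem map_univ_mul_ptIdeal {R : Type u} [CommRing R] [Algebra k R] (ψ : A →ₐ[k] A')
    (φ₀ : R →ₐ[k] A) {I : Ideal (R ⊗[k] B₀)} {m : ℕ} (q : Fin m → (B₀ →ₐ[k] k)) :
    (I.map (H491.bc B₀ φ₀) * ptIdeal q A).map (tensorMapLeft k ψ B₀) =
      I.map (H491.bc B₀ (ψ.comp φ₀)) * ptIdeal q A' := by
  rw [Ideal.map_mul, H791.map_ptIdeal ψ q, map_bc_comp]

end Ideal

section Main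

variable {k : Type u} [Field k] [IsAlgClosed k]
  {B₀ B₁ B₀₁ : Type u} [CommRing B₀] [CommRing B₁] [CommRing B₀₁]
  [Algebra k B₀] [Algebra k B₁] [Algebra k B₀₁] [Algebra B₀ B₀₁] [Algebra B₁ B₀₁]
  [IsScalarTower k B₀ B₀₁] [IsScalarTower k B₁ B₀₁]
  {x : B₀} {y : B₁} {e : B₁ →ₐ[k] k}
  {A A' : Type u} [CommRing A] [Algebra k A] [CommRing A'] [Algebra k A']

/-- **PT-BC** (exact skeleton statement): the point conditions are compatible with base
change, with Hilbert coordinates `ψ ∘ φ₀`. -/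
theorem pointCond_bc (hC : IsCurveChart k B₀ B₁ B₀₁ x y e) (i : ChartIndex k B₀)
    (hnum : i.Numeric B₀₁ y) {G : CurveGD k B₀ B₁ B₀₁ A} {G' : CurveGD k B₀ B₁ B₀₁ A'}
    (ψ : A →ₐ[k] A') (hbc : CurveGD.IsBC ψ G G') (hrig : G.Rigidifiable e) (hdeg : G.Deg0)
    {φ₀ : H491.Rβ k i.β →ₐ[k] A} (h : PointCond x y i G φ₀) :
    PointCond x y i G' (ψ.comp φ₀) := by
  letI : Algebra A A' := ψ.toRingHom.toAlgebra
  haveI : IsScalarTower k A A' := IsScalarTower.of_algebraMap_eq' (by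
    ext c
    exact (ψ.commutes c).symm)
  have hψ : ∀ a, ψ a = algebraMap A A' a := fun _ => rfl
  have h1 : P1 x i.n i.q G := h.p1
  -- `P1` for `G'`
  have h1' : P1 x i.n i.q G' := by
    rw [H791.p1_iff_annihilator_map hC i.n i.q ψ hψ hbc h1.1]
    have htop : H791.evRange x i.n i.q G = ⊤ := (H791.p1_iff.mp h1).2
    have hann : Module.annihilator A (G.N₀ ⧸ H791.evRange x i.n i.q G) = ⊤ := by
      rw [Ideal.eq_top_iff_one, Module.mem_annihilator]
      intro z
      obtain ⟨a, rfl⟩ := Submodule.Quotient.mk_surjective _ z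
      rw [one_smul, Submodule.Quotient.mk_eq_zero, htop]
      exact Submodule.mem_top
    rw [hann, Ideal.map_top]
  obtain ⟨bc⟩ := hbc
  obtain ⟨E⟩ := H791.exists_bcEquivs ψ hψ bc
  obtain ⟨s, hs, hspan⟩ := h.sect
  refine ⟨h1', ⟨(bc.b₀ s.1, bc.b₁ s.2), isGen_bc E i.n i.q h1 hs, ?_⟩, h.unit.map ψ⟩
  have h2 := span_b₀_eq E _ hspan
  rw [h2, map_univ_mul_ptIdeal ψ φ₀ i.q]

/-- The leaf `PointBC`. -/
theorem leaf_pointBC : H11.Leaf.PointBC k B₀ B₁ B₀₁ :=
  fun _ _ _ hC i hnum _ _ _ _ _ _ _ _ ψ hbc hrig hdeg _ h =>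
    pointCond_bc hC i hnum ψ hbc hrig hdeg h

end Main

end Fermat.Agent.S25.H327
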