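import Fermat.Agent.S25.H327.PullbackComp

/-!
# S25 / AS2-AS3 shared core (helper327): the classifying map of an Abel family is surjective
-/

set_option autoImplicit false
set_option linter.style.haveILetI false
universe u
open CategoryTheory CategoryTheory.Limits AlgebraicGeometry AlgebraicGeometry.RelPicard
  NeronModelInfra GoodReductionJacobian

namespace Fermat.Agent.S25.H327

noncomputable section

variable {k : Type u} [Field k]

/-- The `k`-algebra structure on `A` induced by a morphism `Spec A ⟶ Spec k`. -/
@[reducible] def algebraOfSpecHom {A : Type u} [CommRing A]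
    (s : Spec (CommRingCat.of A) ⟶ Spec (CommRingCat.of k)) : Algebra k A :=
  (Spec.preimage s).hom.toAlgebra

theorem specStr_algebraOfSpecHom {A : Type u} [CommRing A]
    (s : Spec (CommRingCat.of A) ⟶ Spec (CommRingCat.of k)) :
    @specStr k _ A _ (algebraOfSpecHom s) = s := by
  letI := algebraOfSpecHom s
  change Spec.map (CommRingCat.ofHom (Spec.preimage s).hom) = s
  rw [CommRingCat.ofHom_hom, Spec.map_preimage]

variable {C : Scheme.{u}} {c : C ⟶ Spec (CommRingCat.of k)}
  {ε : SchemeHomOver (𝟙 (Spec (CommRingCat.of k))) c}

/-- Shared core of AS2/AS3: if every degree-zero rigidified bundle over an algebraically closed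
field is a fibre of the family `M` over `X`, then the classifying map `X ⟶ J` is surjective. -/
theorem classify_surjective {D : RelativePic0Designation k c}
    (h : RepresentsRelSubPic c ε (algEquivZeroCut c ε) D)
    {X : Scheme.{u}} (x : X ⟶ Spec (CommRingCat.of k)) (M : RigidifiedLineBundle c ε x)
    (hM : FibrewiseAlgEquivZero M)
    (hAb : ∀ (K : Type u) [Field K] [IsAlgClosed K] [Algebra k K]
        (L : RigidifiedLineBundle c ε (specStr k K)), FibrewiseAlgEquivZero L →
        ∃ p : SchemeHomOver (specStr k K) x, RIso (M.pullbackAlong p) L) :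
    Surjective (h.classify x M hM).1 := by
  refine ⟨fun j => ?_⟩
  let K := AlgebraicClosure (D.P.residueField j)
  let s : Spec (CommRingCat.of K) ⟶ D.P :=
    Spec.map (CommRingCat.ofHom (algebraMap (D.P.residueField j) K)) ≫
      D.P.fromSpecResidueField j
  letI : Algebra k K := algebraOfSpecHom (s ≫ D.toBase)
  have hs : s ≫ D.toBase = specStr k K := (specStr_algebraOfSpecHom _).symm
  let g : SchemeHomOver (specStr k K) D.toBase := ⟨s, hs⟩
  have hL : FibrewiseAlgEquivZero (h.poincare.pullbackAlong g) :=
    FibrewiseAlgEquivZero.pullback g h.poincare_mem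
  obtain ⟨p, hp⟩ := hAb K (h.poincare.pullbackAlong g) hL
  have hα : RIso (h.poincare.pullbackAlong (h.classify x M hM)) M := h.classify_spec x M hM
  have h1 : RIso (h.poincare.pullbackAlong (postComp (h.classify x M hM) p))
      (h.poincare.pullbackAlong g) :=
    rIso_trans (rIso_pullbackAlong_comp h.poincare (h.classify x M hM) p)
      (rIso_trans (RigidifiedLineBundle.pullbackAlong_congr p hα) hp)
  have h2 : postComp (h.classify x M hM) p = g := h.ext_of_iso _ _ _ h1
  have h3 : p.1 ≫ (h.classify x M hM).1 = s := congrArg Subtype.val h2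
  obtain ⟨pt⟩ : Nonempty (Spec (CommRingCat.of K)) := inferInstance
  refine ⟨p.1 pt, ?_⟩
  have h4 : (p.1 ≫ (h.classify x M hM).1) pt = j := by
    rw [h3]
    simp only [s, Scheme.Hom.comp_apply]
    exact Scheme.fromSpecResidueField_apply _ _
  simpa using h4

end

end Fermat.Agent.S25.H327
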