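import Fermat.Agent.S25.H327.DictDegLocal

/-!
# S25 / DICTDEG, direction (⇒) (helper327): `FibrewiseAlgEquivZero M → G.Deg0`

Blueprint item B1.  Hypotheses: the frozen dictionary statements `DictSections`, `DictIso`,
`DictBC`, `AlgBCExists`, and the two facts `DegLocallyConstant` (DEGREE D2 + D9) and `UnitDegZero`
of `DictDegDefs.lean`.
-/

set_option autoImplicit false
set_option linter.style.haveILetI false
set_option linter.unusedSectionVars false

universe u

open CategoryTheory CategoryTheory.Limits AlgebraicGeometry AlgebraicGeometry.RelPicard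
  NeronModelInfra GoodReductionJacobian
open scoped TensorProduct

namespace Fermat.Agent.S25.H327

open Fermat.Agent.S25.H206

noncomputable section

variable {k : Type u} [Field k] {C : Scheme.{u}} {c : C ⟶ Spec (CommRingCat.of k)}
  {ε : SchemeHomOver (𝟙 (Spec (CommRingCat.of k))) c}

/-- A *test* of the family `M'` over `T'` with value `n`: a field-valued point `τ` of `T'`, a
rigidified bundle over it isomorphic to the pullback of the family, and a gluing datum of
sections of it, of degree `n`. -/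
structure FamTest (Ch : ChartOf c ε) {S : Scheme.{u}} (t : S ⟶ Spec (CommRingCat.of k))
    {K : Type u} [Field K] (s : Spec (CommRingCat.of K) ⟶ S)
    {T' : Scheme.{u}} (h : T' ⟶ Spec (CommRingCat.of K))
    (M' : (pullback (fibreAt c t s) h).Modules) (n : ℤ) : Type (u + 1) where
  F : Type u
  [field : Field F]
  [algebra : Algebra k F]
  τ : Spec (CommRingCat.of F) ⟶ T'
  hτ : τ ≫ h ≫ s ≫ t = specStr k F
  N : RigidifiedLineBundle c ε (specStr k F)
  G : CurveGD k Ch.B₀ Ch.B₁ Ch.B₀₁ F
  iso : Nonempty (N.L ≅ (Scheme.Modules.pullback (famMap c t s h τ hτ)).obj M')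
  corr : Corr Ch F N.L G
  deg : G.degree = n

attribute [instance] FamTest.field FamTest.algebra

section Local

variable (Ch : ChartOf c ε) (hSec : Stmt.DictSections Ch) (hIso : Stmt.DictIso Ch)
  (hBC : Stmt.DictBC Ch) (hEx : Stmt.AlgBCExists Ch) (hLC : DegLocallyConstant Ch)
  {S : Scheme.{u}} {t : S ⟶ Spec (CommRingCat.of k)}
  {K : Type u} [Field K] {s : Spec (CommRingCat.of K) ⟶ S}
  {T' : Scheme.{u}} {h : T' ⟶ Spec (CommRingCat.of K)}
  (M' : (pullback (fibreAt c t s) h).Modules) (hM' : Scheme.Modules.IsInvertible M')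

include hSec hIso hBC hEx hLC hM' in
/-- **Local value.** Every point `p` of `T'` has an open neighbourhood `O` and an integer `n`
such that every test landing in `O` has value `n`, and there is a test at `p`. -/
theorem exists_local_value (p : T') :
    ∃ (n : ℤ) (O : Set T'), IsOpen O ∧ p ∈ O ∧
      (∀ (m : ℤ) (X : FamTest Ch t s h M' m), (∀ x, X.τ x ∈ O) → m = n) ∧
      ∃ X : FamTest Ch t s h M' n, ∀ x, X.τ x = p := by
  classical
  -- trivialise the pullback of the family along the section on an affine neighbourhood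
  have hE : Scheme.Modules.IsInvertible
      ((Scheme.Modules.pullback (famSection c ε t s h)).obj M') := hM'.pullback _
  obtain ⟨V, hV, hpV, ⟨eV⟩⟩ := exists_affine_trivialization hE p
  let R : Type u := Γ(T', V)
  let τV : Spec (CommRingCat.of R) ⟶ T' := hV.fromSpec
  letI algR : Algebra k R := algebraOfSpecHom (τV ≫ h ≫ s ≫ t)
  have hτV : τV ≫ h ≫ s ≫ t = specStr k R := (specStr_algebraOfSpecHom _).symm
  -- the rigidified bundle over the affine neighbourhood
  let MV : RigidifiedLineBundle c ε (specStr k R) :=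
    { L := (Scheme.Modules.pullback (famMap c t s h τV hτV)).obj M'
      isInvertible := hM'.pullback _
      rigidified := ⟨pullbackSquareIso (rigSection_famMap ε τV hτV) M' ≪≫ eV⟩ }
  obtain ⟨GV, hGV, -⟩ := hSec R MV
  obtain ⟨d, hdlc, hd⟩ := hLC R GV
  let pV : PrimeSpectrum R := hV.primeIdealOf ⟨p, hpV⟩
  have hpVp : τV pV = p := hV.fromSpec_primeIdealOf ⟨p, hpV⟩
  let W : Set (PrimeSpectrum R) := d ⁻¹' {d pV}
  have hW : IsOpen W := hdlc.isOpen_fiber _
  have hτVopen : IsOpenMap (τV : Spec (CommRingCat.of R) → T') :=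
    (hV.fromSpec.isOpenEmbedding).isOpenMap
  have hτVinj : Function.Injective (τV : Spec (CommRingCat.of R) → T') :=
    (hV.fromSpec.isOpenEmbedding).injective
  -- every `k`-algebra point of `Spec R` gives a test
  have key : ∀ (F : Type u) [Field F] [Algebra k F] (ρ : R →ₐ[k] F),
      ∃ (hτ : ((specHomOver k ρ).1 ≫ τV) ≫ h ≫ s ≫ t = specStr k F)
        (G : CurveGD k Ch.B₀ Ch.B₁ Ch.B₀₁ F),
        Corr Ch F (MV.pullbackAlong (specHomOver k ρ)).L G ∧
        Nonempty ((MV.pullbackAlong (specHomOver k ρ)).L ≅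
          (Scheme.Modules.pullback (famMap c t s h ((specHomOver k ρ).1 ≫ τV) hτ)).obj M') ∧
        G.degree = d ⟨RingHom.ker ρ.toRingHom, RingHom.ker_isPrime _⟩ := by
    intro F _ _ ρ
    have hτ : ((specHomOver k ρ).1 ≫ τV) ≫ h ≫ s ≫ t = specStr k F := by
      rw [Category.assoc, hτV]
      exact (specHomOver k ρ).2
    obtain ⟨G, hG⟩ := hEx R F ρ GV
    refine ⟨hτ, G, hBC R F ρ MV GV G hGV hG, ⟨?_⟩, hd F ρ G hG⟩
    exact pullbackFactorIso (famMap_comp τV hτV (specHomOver k ρ) hτ).symm M'
  refine ⟨d pV, τV '' W, hτVopen W hW, ⟨pV, rfl, hpVp⟩, ?_, ?_⟩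
  · -- every test landing in the neighbourhood has value `d pV`
    intro m X hX
    have hXV : ∀ x, X.τ x ∈ V := by
      intro x
      obtain ⟨w, -, hw⟩ := hX x
      rw [← hw]
      have : τV w ∈ Set.range hV.fromSpec := ⟨w, rfl⟩
      rw [hV.range_fromSpec] at this
      exact this
    obtain ⟨ρ0, hρ0⟩ := exists_factor_fromSpec hV X.τ hXV
    -- `ρ0` is a `k`-algebra homomorphism
    have hcomm : ∀ a : k, ρ0.hom (algebraMap k R a) = algebraMap k X.F a := by
      have h1 : Spec.map ρ0 ≫ specStr k R = specStr k X.F := by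
        rw [← hτV, ← Category.assoc, ← X.hτ]
        congr 1
      have h2 : Spec.map (CommRingCat.ofHom (algebraMap k R) ≫ ρ0) =
          Spec.map (CommRingCat.ofHom (algebraMap k X.F)) := by
        rw [Spec.map_comp]
        exact h1
      have h3 := Spec.map_injective h2
      intro a
      exact congrArg (fun f => f.hom a) h3
    let ρ : R →ₐ[k] X.F := { ρ0.hom with commutes' := hcomm }
    have hρ1 : (specHomOver k ρ).1 = Spec.map ρ0 := rfl
    obtain ⟨hτ, G, hG, ⟨eG⟩, hdeg⟩ := key X.F ρ
    have hττ : (specHomOver k ρ).1 ≫ τV = X.τ := by rw [hρ1]; exact hρ0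
    obtain ⟨eX⟩ := X.iso
    have hriso : RIso (MV.pullbackAlong (specHomOver k ρ)) X.N :=
      ⟨eG ≪≫ eqToIso (by rw [famMap_congr hττ hτ X.hτ]) ≪≫ eX.symm⟩
    have hGG : G.IsIso X.G := (hIso X.F _ _ G X.G hG X.corr).1 hriso
    have hdegG : G.degree = X.G.degree := degree_eq_of_isIso hLC hGG
    -- the point lies in `W`
    obtain ⟨x₀⟩ : Nonempty (Spec (CommRingCat.of X.F)) := inferInstance
    obtain ⟨w, hwW, hw⟩ := hX x₀
    have hwx : w = Spec.map ρ0 x₀ := by
      apply hτVinj
      rw [hw, ← hρ0]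
      rfl
    have hker : (Spec.map ρ0 x₀ : PrimeSpectrum R) =
        ⟨RingHom.ker ρ.toRingHom, RingHom.ker_isPrime _⟩ := specMap_apply_eq_ker ρ0 x₀
    have hdw : d w = d pV := hwW
    rw [← X.deg, ← hdegG, hdeg, ← hker, ← hwx, hdw]
  · -- a test at `p`
    let F : Type u := pV.asIdeal.ResidueField
    letI : Algebra k F := ((algebraMap R F).comp (algebraMap k R)).toAlgebra
    let ρ : R →ₐ[k] F := { algebraMap R F with commutes' := fun _ => rfl }
    obtain ⟨hτ, G, hG, eG, hdeg⟩ := key F ρ
    have hker : (⟨RingHom.ker ρ.toRingHom, RingHom.ker_isPrime _⟩ : PrimeSpectrum R) = pV := by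
      apply PrimeSpectrum.ext
      exact Ideal.ker_algebraMap_residueField _
    refine ⟨{ F := F, τ := (specHomOver k ρ).1 ≫ τV, hτ := hτ,
              N := MV.pullbackAlong (specHomOver k ρ), G := G, iso := eG, corr := hG,
              deg := by rw [hdeg, hker] }, ?_⟩
    intro x
    change τV (Spec.map (CommRingCat.ofHom ρ.toRingHom) x) = p
    rw [specMap_apply_eq_ker, ← hpVp]
    congr 1

include hSec hIso hBC hEx hLC hM' in
/-- **Constancy.** On a connected `T'` all tests have the same value. -/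
theorem famTest_value_eq [PreconnectedSpace T'] {m m' : ℤ} (X : FamTest Ch t s h M' m)
    (X' : FamTest Ch t s h M' m') : m = m' := by
  classical
  choose D O hO hpO huniq hex using
    exists_local_value (ε := ε) Ch hSec hIso hBC hEx hLC M' hM'
  have hD : IsLocallyConstant D := by
    rw [IsLocallyConstant.iff_exists_open]
    intro p
    refine ⟨O p, hO p, hpO p, fun q hq => ?_⟩
    obtain ⟨Y, hY⟩ := hex q
    exact huniq p (D q) Y (fun x => by rw [hY x]; exact hq)
  have hval : ∀ (n : ℤ) (Y : FamTest Ch t s h M' n) (x₀ : Spec (CommRingCat.of Y.F)),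
      n = D (Y.τ x₀) := by
    intro n Y x₀
    refine huniq (Y.τ x₀) n Y (fun x => ?_)
    have : x = x₀ := Subsingleton.elim _ _
    rw [this]
    exact hpO _
  obtain ⟨x₀⟩ : Nonempty (Spec (CommRingCat.of X.F)) := inferInstance
  obtain ⟨x₀'⟩ : Nonempty (Spec (CommRingCat.of X'.F)) := inferInstance
  rw [hval m X x₀, hval m' X' x₀']
  exact hD.apply_eq_of_preconnectedSpace _ _

end Local

/-- **DICTDEG, direction (⇒).** A rigidified bundle which is fibrewise algebraically equivalent
to zero has a gluing datum of sections of fibrewise degree zero. -/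
theorem deg0_of_fibrewiseAlgEquivZero (Ch : ChartOf c ε) (hSec : Stmt.DictSections Ch)
    (hIso : Stmt.DictIso Ch) (hBC : Stmt.DictBC Ch) (hEx : Stmt.AlgBCExists Ch)
    (hLC : DegLocallyConstant Ch) (hU : UnitDegZero Ch)
    (A : Type u) [CommRing A] [Algebra k A] (M : RigidifiedLineBundle c ε (specStr k A))
    (G : CurveGD k Ch.B₀ Ch.B₁ Ch.B₀₁ A) (hG : Corr Ch A M.L G)
    (hM : FibrewiseAlgEquivZero M) : G.Deg0 := by
  intro K _ _ φ G' hG'
  -- pass to an algebraic closure
  let ψ : K →ₐ[k] AlgebraicClosure K := IsScalarTower.toAlgHom k K (AlgebraicClosure K)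
  obtain ⟨G'', hG''⟩ := hEx K (AlgebraicClosure K) ψ G'
  have hdeg : G''.degree = G'.degree := degree_eq_of_isBC_field hLC ψ hG''
  rw [← hdeg]
  have hc1 : Corr Ch K (M.pullbackAlong (specHomOver k φ)).L G' := hBC A K φ M G G' hG hG'
  have hc2 : Corr Ch (AlgebraicClosure K)
      ((M.pullbackAlong (specHomOver k φ)).pullbackAlong (specHomOver k ψ)).L G'' :=
    hBC K (AlgebraicClosure K) ψ _ G' G'' hc1 hG''
  -- the geometric point and the family
  let g : SchemeHomOver (specStr k (AlgebraicClosure K)) (specStr k A) :=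
    postComp (specHomOver k φ) (specHomOver k ψ)
  obtain ⟨T', h, hlft, hgi, M', hM', t₀, t₁, ⟨e₀⟩, ⟨e₁⟩⟩ := hM (AlgebraicClosure K) g.1
  haveI : IsIntegral T' := GeometricallyIntegral.isIntegral_of_subsingleton h
  have hτ : ∀ p : SchemeHomOver (𝟙 (Spec (CommRingCat.of (AlgebraicClosure K)))) h,
      p.1 ≫ h ≫ g.1 ≫ specStr k A = specStr k (AlgebraicClosure K) := by
    intro p
    rw [← Category.assoc, p.2, Category.id_comp]
    exact g.2
  -- the two tests
  obtain ⟨Gu, hGu, -⟩ := hSec (AlgebraicClosure K)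
    (RigidifiedLineBundle.unit (c := c) (ε := ε) (specStr k (AlgebraicClosure K)))
  let X₀ : FamTest Ch (specStr k A) g.1 h M' 0 :=
    { F := AlgebraicClosure K, τ := t₀.1, hτ := hτ t₀,
      N := RigidifiedLineBundle.unit (specStr k (AlgebraicClosure K)), G := Gu,
      iso := ⟨(famFibreUnitIso M' t₀ (hτ t₀) e₀).symm⟩, corr := hGu,
      deg := hU (AlgebraicClosure K) Gu hGu }
  let X₁ : FamTest Ch (specStr k A) g.1 h M' G''.degree :=
    { F := AlgebraicClosure K, τ := t₁.1, hτ := hτ t₁,
      N := (M.pullbackAlong (specHomOver k φ)).pullbackAlong (specHomOver k ψ), G := G'',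
      iso := ⟨(rIso_pullbackAlong_comp M (specHomOver k φ) (specHomOver k ψ)).some.symm ≪≫
        (famFibreIso M' M.L t₁ (hτ t₁) g.2 e₁).symm⟩,
      corr := hc2, deg := rfl }
  exact famTest_value_eq Ch hSec hIso hBC hEx hLC M' hM' X₁ X₀

end

end Fermat.Agent.S25.H327
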