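import Fermat.Agent.S25.H327.Transport
import Fermat.Agent.S25.H327.DictDegDefs

/-!
# S25 / DICTDEG (helper327): local analysis of a Prelude family

Generic lemmas: trivialising an invertible module on an affine neighbourhood, factoring a
field-valued point through an affine open, the two marked fibres of a family.
-/

set_option autoImplicit false
set_option linter.style.haveILetI false
set_option linter.unusedSectionVars false

universe u

open CategoryTheory CategoryTheory.Limits AlgebraicGeometry AlgebraicGeometry.RelPicard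
  NeronModelInfra GoodReductionJacobian
open scoped TensorProduct

namespace Fermat.Agent.S25.H327

open Fermat.Agent.S25.H206

noncomputable section

/-- An invertible module is trivial on an affine open neighbourhood of any point (in the
`fromSpec` form). -/
theorem exists_affine_trivialization {T : Scheme.{u}} {E : T.Modules}
    (hE : Scheme.Modules.IsInvertible E) (p : T) :
    ∃ (V : T.Opens) (hV : IsAffineOpen V), p ∈ V ∧
      Nonempty ((Scheme.Modules.pullback hV.fromSpec).obj E ≅
        SheafOfModules.unit (Spec Γ(T, V)).ringCatSheaf) := by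
  obtain ⟨U, hpU, ⟨eU⟩⟩ := hE.exists_trivialization p
  obtain ⟨_, ⟨V, hV, rfl⟩, hpV, hVU⟩ :=
    T.isBasis_affineOpens.exists_subset_of_mem_open hpU U.isOpen
  refine ⟨V, hV, hpV, ⟨?_⟩⟩
  have hrange : Set.range hV.fromSpec ⊆ Set.range U.ι := by
    rw [hV.range_fromSpec, Scheme.Opens.range_ι]
    exact hVU
  let l : Spec Γ(T, V) ⟶ U.toScheme := IsOpenImmersion.lift U.ι hV.fromSpec hrange
  have hl : l ≫ U.ι = hV.fromSpec := IsOpenImmersion.lift_fac _ _ _
  exact (pullbackFactorIso hl E).symm ≪≫ (Scheme.Modules.pullback l).mapIso eU ≪≫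
    Scheme.Modules.pullbackUnitIso l

/-- A morphism from the spectrum of a field landing in an affine open factors through it. -/
theorem exists_factor_fromSpec {T : Scheme.{u}} {V : T.Opens} (hV : IsAffineOpen V)
    {F : Type u} [Field F] (τ : Spec (CommRingCat.of F) ⟶ T) (hτ : ∀ x, τ x ∈ V) :
    ∃ ρ : Γ(T, V) ⟶ CommRingCat.of F, Spec.map ρ ≫ hV.fromSpec = τ := by
  have hrange : Set.range τ ⊆ Set.range hV.fromSpec := by
    rw [hV.range_fromSpec]
    rintro _ ⟨x, rfl⟩
    exact hτ x
  refine ⟨Spec.preimage (IsOpenImmersion.lift hV.fromSpec τ hrange), ?_⟩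
  rw [Spec.map_preimage, IsOpenImmersion.lift_fac]

/-- The spectrum of a field has a unique point, whose image under `Spec.map ρ` is the kernel
of `ρ`. -/
theorem specMap_apply_eq_ker {R : CommRingCat.{u}} {F : Type u} [Field F]
    (ρ : R ⟶ CommRingCat.of F) (x : Spec (CommRingCat.of F)) :
    (Spec.map ρ x : PrimeSpectrum R) = ⟨RingHom.ker ρ.hom, RingHom.ker_isPrime _⟩ := by
  apply PrimeSpectrum.ext
  have hx : x.asIdeal = ⊥ := by
    have := x.2
    rcases Ideal.eq_bot_or_top x.asIdeal with h | h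
    · exact h
    · exact absurd h this.ne_top
  change Ideal.comap ρ.hom x.asIdeal = RingHom.ker ρ.hom
  rw [hx]
  rfl

variable {k : Type u} [Field k] {C : Scheme.{u}} {c : C ⟶ Spec (CommRingCat.of k)}
  {ε : SchemeHomOver (𝟙 (Spec (CommRingCat.of k))) c}
  {S : Scheme.{u}} {t : S ⟶ Spec (CommRingCat.of k)}
  {K : Type u} [Field K] {s : Spec (CommRingCat.of K) ⟶ S}
  {T' : Scheme.{u}} {h : T' ⟶ Spec (CommRingCat.of K)}

theorem famMap_congr {Z : Scheme.{u}} {z : Z ⟶ Spec (CommRingCat.of k)} {τ τ' : Z ⟶ T'}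
    (e : τ = τ') (hτ : τ ≫ h ≫ s ≫ t = z) (hτ' : τ' ≫ h ≫ s ≫ t = z) :
    famMap c t s h τ hτ = famMap c t s h τ' hτ' := by
  subst e
  rfl

/-- At a `K`-point `p` of `T'`, the map `famMap` is the canonical isomorphism followed by the
base change to the point. -/
theorem famMap_point {z : Spec (CommRingCat.of K) ⟶ Spec (CommRingCat.of k)}
    (p : SchemeHomOver (𝟙 (Spec (CommRingCat.of K))) h) (hτ : p.1 ≫ h ≫ s ≫ t = z)
    (hid : 𝟙 (Spec (CommRingCat.of K)) ≫ 𝟙 (Spec (CommRingCat.of K)) ≫ s ≫ t = z) :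
    famMap c t s h p.1 hτ =
      famMap c t s (𝟙 (Spec (CommRingCat.of K))) (𝟙 _) hid ≫
        baseChangeSnd (fibreAt c t s) p := by
  apply fam_hom_ext
  · rw [famMap_fst_assoc, famMapFst_fst_assoc, baseChangeSnd_fst, Category.assoc,
      baseChangeSnd_fst_assoc, famMap_fst_assoc, famMapFst_fst_assoc, baseChangeSnd_fst]
  · rw [famMap_snd, Category.assoc, baseChangeSnd_snd, famMap_snd_assoc, Category.id_comp]

/-- The fibre of a family over a `K`-point at which the family is trivial. -/
def famFibreUnitIso {z : Spec (CommRingCat.of K) ⟶ Spec (CommRingCat.of k)}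
    (M' : (pullback (fibreAt c t s) h).Modules)
    (p : SchemeHomOver (𝟙 (Spec (CommRingCat.of K))) h) (hτ : p.1 ≫ h ≫ s ≫ t = z)
    (e₀ : (Scheme.Modules.pullback (baseChangeSnd (fibreAt c t s) p)).obj M' ≅
      SheafOfModules.unit
        (pullback (fibreAt c t s) (𝟙 (Spec (CommRingCat.of K)))).ringCatSheaf) :
    (Scheme.Modules.pullback (famMap c t s h p.1 hτ)).obj M' ≅
      SheafOfModules.unit (pullback c z).ringCatSheaf :=
  have hid : 𝟙 (Spec (CommRingCat.of K)) ≫ 𝟙 (Spec (CommRingCat.of K)) ≫ s ≫ t = z := by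
    rw [← hτ, Category.id_comp, Category.id_comp, ← Category.assoc p.1 h, p.2, Category.id_comp]
  (pullbackFactorIso (famMap_point p hτ hid).symm M').symm ≪≫
    (Scheme.Modules.pullback _).mapIso e₀ ≪≫ Scheme.Modules.pullbackUnitIso _

/-- The fibre of a family over a `K`-point at which the family is the fibre of `L`. -/
def famFibreIso {z : Spec (CommRingCat.of K) ⟶ Spec (CommRingCat.of k)}
    (M' : (pullback (fibreAt c t s) h).Modules) (L : (pullback c t).Modules)
    (p : SchemeHomOver (𝟙 (Spec (CommRingCat.of K))) h) (hτ : p.1 ≫ h ≫ s ≫ t = z)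
    (hs : s ≫ t = z)
    (e₁ : (Scheme.Modules.pullback (baseChangeSnd (fibreAt c t s) p)).obj M' ≅
      (Scheme.Modules.pullback (pullback.fst (fibreAt c t s) (𝟙 (Spec (CommRingCat.of K))))).obj
        ((Scheme.Modules.pullback (pullback.fst (pullback.snd c t) s)).obj L)) :
    (Scheme.Modules.pullback (famMap c t s h p.1 hτ)).obj M' ≅
      (Scheme.Modules.pullback (baseChangeSnd c (⟨s, hs⟩ : SchemeHomOver z t))).obj L :=
  have hid : 𝟙 (Spec (CommRingCat.of K)) ≫ 𝟙 (Spec (CommRingCat.of K)) ≫ s ≫ t = z := by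
    rw [Category.id_comp, Category.id_comp, hs]
  have h1 : famMap c t s (𝟙 (Spec (CommRingCat.of K))) (𝟙 _) hid ≫
      pullback.fst (fibreAt c t s) (𝟙 (Spec (CommRingCat.of K))) =
      famMapFst c t s (𝟙 (Spec (CommRingCat.of K))) (𝟙 _) hid := famMap_fst _ _
  have h2 : famMapFst c t s (𝟙 (Spec (CommRingCat.of K))) (𝟙 _) hid ≫
      pullback.fst (pullback.snd c t) s = baseChangeSnd c (⟨s, hs⟩ : SchemeHomOver z t) := by
    rw [famMapFst_fst]
    congr 1
  (pullbackFactorIso (famMap_point p hτ hid).symm M').symm ≪≫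
    (Scheme.Modules.pullback _).mapIso e₁ ≪≫
    pullbackFactorIso h1 _ ≪≫ pullbackFactorIso h2 L

end

end Fermat.Agent.S25.H327
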