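import Fermat.Agent.S25.H327.AbelSurj

/-!
# S25 / AS3 (helper327): `Abel → GeomConnOfRep`
-/

set_option autoImplicit false
set_option linter.style.haveILetI false
universe u
open CategoryTheory CategoryTheory.Limits AlgebraicGeometry AlgebraicGeometry.RelPicard
  NeronModelInfra GoodReductionJacobian

namespace Fermat.Agent.S25.H327

noncomputable section

variable {k : Type u} [Field k] {C : Scheme.{u}} {c : C ⟶ Spec (CommRingCat.of k)}
  {ε : SchemeHomOver (𝟙 (Spec (CommRingCat.of k))) c}

/-- If `f : X ⟶ J` is surjective and `f ≫ j` is geometrically integral, then `j` is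
geometrically connected. -/
theorem geometricallyConnected_of_surjective {X J S : Scheme.{u}} (f : X ⟶ J) (j : J ⟶ S)
    [Surjective f] [GeometricallyIntegral (f ≫ j)] : GeometricallyConnected j := by
  refine ⟨(geometrically_iff_of_isClosedUnderIsomorphisms).mpr fun K _ y => ?_⟩
  haveI : IsIntegral (pullback (f ≫ j) y) :=
    pullback_of_geometrically (GeometricallyIntegral.geometrically_isIntegral (f := f ≫ j)) K y
  haveI : IsIntegral (pullback f (pullback.fst j y)) :=
    .of_isIso (pullbackRightPullbackFstIso j y f).inv
  exact (pullback.snd f (pullback.fst j y)).surjective.connectedSpace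
    (pullback.snd f (pullback.fst j y)).continuous

/-- AS3: a representing object is geometrically connected, from `Abel`. -/
theorem geomConnOfRep (hAbel : Stmt.Abel c ε) : Stmt.GeomConnOfRep c ε := by
  intro D ⟨h⟩ _
  obtain ⟨X, x, -, hgi, M, hM, hAb⟩ := hAbel
  haveI hsurj : Surjective (h.classify x M hM).1 := classify_surjective h x M hM hAb
  have hcomp : (h.classify x M hM).1 ≫ D.toBase = x := (h.classify x M hM).2
  haveI : GeometricallyIntegral ((h.classify x M hM).1 ≫ D.toBase) := by rw [hcomp]; exact hgi
  exact geometricallyConnected_of_surjective (h.classify x M hM).1 D.toBase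

end

end Fermat.Agent.S25.H327
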