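import Fermat.Agent.S25.H327.AbelSurj

/-!
# S25 / AS2 (helper327): `Val → Abel → ProperOfRep`
-/

set_option autoImplicit false
set_option linter.style.haveILetI false
universe u
open CategoryTheory CategoryTheory.Limits AlgebraicGeometry AlgebraicGeometry.RelPicard
  NeronModelInfra GoodReductionJacobian

namespace Fermat.Agent.S25.H327

noncomputable section

variable {k : Type u} [Field k] {C : Scheme.{u}} {c : C ⟶ Spec (CommRingCat.of k)}
  {ε : SchemeHomOver (𝟙 (Spec (CommRingCat.of k))) c}

/-- Uniqueness part of the valuative criterion for a representing object, from `Val`. -/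
theorem valuativeUniqueness_of_val (hVal : Stmt.Val c ε) {D : RelativePic0Designation k c}
    (h : RepresentsRelSubPic c ε (algEquivZeroCut c ε) D) :
    ValuativeCriterion.Uniqueness D.toBase := by
  intro S
  refine ⟨fun l₁ l₂ => ?_⟩
  letI : Algebra k S.R := algebraOfSpecHom S.i₂
  have hi₂ : specStr k S.R = S.i₂ := specStr_algebraOfSpecHom S.i₂
  letI : Algebra k S.K := ((algebraMap S.R S.K).comp (algebraMap k S.R)).toAlgebra
  haveI : IsScalarTower k S.R S.K := IsScalarTower.of_algebraMap_eq (fun _ => rfl)
  let g₁ : SchemeHomOver (specStr k S.R) D.toBase := ⟨l₁.l, l₁.fac_right.trans hi₂.symm⟩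
  let g₂ : SchemeHomOver (specStr k S.R) D.toBase := ⟨l₂.l, l₂.fac_right.trans hi₂.symm⟩
  let q := specHomOver k (IsScalarTower.toAlgHom k S.R S.K)
  have hq : q.1 = Spec.map (CommRingCat.ofHom (algebraMap S.R S.K)) := rfl
  have hg : postComp g₁ q = postComp g₂ q := by
    apply Subtype.ext
    change q.1 ≫ l₁.l = q.1 ≫ l₂.l
    rw [hq, l₁.fac_left, l₂.fac_left]
  have h1 : RIso ((h.poincare.pullbackAlong g₁).pullbackAlong q)
      ((h.poincare.pullbackAlong g₂).pullbackAlong q) :=
    rIso_trans (rIso_symm (rIso_pullbackAlong_comp h.poincare g₁ q))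
      (rIso_trans (rIso_of_eq h.poincare hg) (rIso_pullbackAlong_comp h.poincare g₂ q))
  have h2 : RIso (h.poincare.pullbackAlong g₁) (h.poincare.pullbackAlong g₂) :=
    hVal S.R S.K _ _ (FibrewiseAlgEquivZero.pullback g₁ h.poincare_mem)
      (FibrewiseAlgEquivZero.pullback g₂ h.poincare_mem) h1
  have h3 : g₁ = g₂ := h.ext_of_iso _ _ _ h2
  ext : 1
  exact congrArg Subtype.val h3

/-- AS2: a representing object that is locally of finite type is proper, from `Val` and `Abel`. -/
theorem properOfRep (hVal : Stmt.Val c ε) (hAbel : Stmt.Abel c ε) : Stmt.ProperOfRep c ε := by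
  intro D ⟨h⟩ hlft
  obtain ⟨X, x, hx, -, M, hM, hAb⟩ := hAbel
  haveI := hlft
  haveI := hx
  haveI hsurj : Surjective (h.classify x M hM).1 := classify_surjective h x M hM hAb
  have hcomp : (h.classify x M hM).1 ≫ D.toBase = x := (h.classify x M hM).2
  -- universally closed
  haveI : UniversallyClosed ((h.classify x M hM).1 ≫ D.toBase) := by rw [hcomp]; infer_instance
  haveI huc : UniversallyClosed D.toBase := .of_comp_surjective (h.classify x M hM).1 D.toBase
  -- quasi-compact
  haveI : CompactSpace X := (quasiCompact_iff_compactSpace x).mp inferInstance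
  haveI : CompactSpace D.P :=
    (h.classify x M hM).1.surjective.compactSpace (h.classify x M hM).1.continuous
  haveI : QuasiCompact D.toBase := (quasiCompact_iff_compactSpace D.toBase).mpr inferInstance
  -- quasi-separated
  haveI : IsLocallyNoetherian D.P := LocallyOfFiniteType.isLocallyNoetherian D.toBase
  haveI : QuasiSeparated D.toBase := inferInstance
  -- separated
  haveI : IsSeparated D.toBase := .of_valuativeCriterion _ (valuativeUniqueness_of_val hVal h)
  exact { }

end

end Fermat.Agent.S25.H327
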