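import Fermat.Agent.S25.Defs

/-!
# S25 / AS2 support (helper327): composition of `pullbackAlong`, algebra structures from morphisms
-/

set_option autoImplicit false
set_option linter.style.haveILetI false
universe u
open CategoryTheory CategoryTheory.Limits AlgebraicGeometry AlgebraicGeometry.RelPicard
  NeronModelInfra GoodReductionJacobian

namespace Fermat.Agent.S25.H327

noncomputable section

variable {k : Type u} [Field k] {C : Scheme.{u}} {c : C ⟶ Spec (CommRingCat.of k)}
  {ε : SchemeHomOver (𝟙 (Spec (CommRingCat.of k))) c}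

/-- Pulling back twice is pulling back along the composite (up to isomorphism of the underlying
line bundles). -/
theorem rIso_pullbackAlong_comp {X X' T' : Scheme.{u}} {x : X ⟶ Spec (CommRingCat.of k)}
    {x' : X' ⟶ Spec (CommRingCat.of k)} {t' : T' ⟶ Spec (CommRingCat.of k)}
    (M : RigidifiedLineBundle c ε x') (φ : SchemeHomOver x x') (ψ : SchemeHomOver t' x) :
    RIso (M.pullbackAlong (postComp φ ψ)) ((M.pullbackAlong φ).pullbackAlong ψ) :=
  ⟨(Scheme.Modules.pullbackCongr (baseChangeSnd_comp c φ ψ).symm).app M.L ≪≫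
    ((Scheme.Modules.pullbackComp _ _).app M.L).symm⟩

theorem rIso_refl {T : Scheme.{u}} {t : T ⟶ Spec (CommRingCat.of k)}
    (M : RigidifiedLineBundle c ε t) : RIso M M := ⟨Iso.refl _⟩

theorem rIso_symm {T : Scheme.{u}} {t : T ⟶ Spec (CommRingCat.of k)}
    {M M' : RigidifiedLineBundle c ε t} (h : RIso M M') : RIso M' M := ⟨h.some.symm⟩

theorem rIso_trans {T : Scheme.{u}} {t : T ⟶ Spec (CommRingCat.of k)}
    {M M' M'' : RigidifiedLineBundle c ε t} (h : RIso M M') (h' : RIso M' M'') : RIso M M'' :=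
  ⟨h.some ≪≫ h'.some⟩

theorem rIso_of_eq {T : Scheme.{u}} {t : T ⟶ Spec (CommRingCat.of k)}
    (M : RigidifiedLineBundle c ε t) {T' : Scheme.{u}} {t' : T' ⟶ Spec (CommRingCat.of k)}
    {ψ ψ' : SchemeHomOver t' t} (h : ψ = ψ') :
    RIso (M.pullbackAlong ψ) (M.pullbackAlong ψ') := by
  subst h
  exact ⟨Iso.refl _⟩

end

end Fermat.Agent.S25.H327
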