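import Fermat.Agent.S25.H327.StalksCore

/-!
# S25 / CURVE leaf S2 (helper327): the statements of `Curve/Stalks.lean`, with `c` included

Mathlib only, complete proofs.  The S1 facts used (`Γ(C,U)` Dedekind and not a field for every nonempty
affine open `U`) are explicit hypotheses `hD`, `hF`; everything else comes from the S25
hypotheses on `c`.  NOTE: in the skeleton `Curve/Stalks.lean` the statements do not mention `c`,
so Lean drops `c` and every instance depending on it; here `include c` restores them.
-/

set_option autoImplicit false
set_option linter.style.haveILetI false
set_option linter.unusedSectionVars false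
set_option linter.unusedVariables false

universe u

open CategoryTheory AlgebraicGeometry TensorProduct

namespace Fermat.Agent.S25.H327

variable {k : Type u} [Field k] {C : Scheme.{u}} (c : C ⟶ Spec (CommRingCat.of k))

include c in
/-- `C` locally of finite type over a field has Jacobson underlying space. -/
theorem jacobsonSpace_of_locallyOfFiniteType [LocallyOfFiniteType c] : JacobsonSpace C :=
  LocallyOfFiniteType.jacobsonSpace c

include c in
/-- **S1c.** `C` of finite type over a field is a noetherian scheme. -/
theorem isNoetherian_of_finiteType [LocallyOfFiniteType c] [QuasiCompact c] : IsNoetherian C :=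
  haveI : IsLocallyNoetherian C := LocallyOfFiniteType.isLocallyNoetherian c
  haveI : CompactSpace C := (quasiCompact_iff_compactSpace c).mp inferInstance
  { }

variable [IsAlgClosed k] [IsProper c] [SmoothOfRelativeDimension 1 c] [IsIntegral C]
variable (hD : ∀ U : C.Opens, IsAffineOpen U → Nonempty U → IsDedekindDomain Γ(C, U))
  (hF : ∀ U : C.Opens, IsAffineOpen U → Nonempty U → ¬ IsField Γ(C, U))

include c hD in
/-- **S2a.** Every point of `C` is closed or the generic point. -/
theorem isClosed_singleton_or_eq_genericPoint (P : C) :
    IsClosed ({P} : Set C) ∨ P = genericPoint C := by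
  haveI := jacobsonSpace_of_locallyOfFiniteType c
  exact isClosed_singleton_or_eq_genericPoint_of hD P

include c hF in
/-- **S2b.** The generic point is not closed. -/
theorem not_isClosed_singleton_genericPoint : ¬ IsClosed ({genericPoint C} : Set C) :=
  not_isClosed_singleton_genericPoint_of hF

include c hD hF in
/-- **S2c.** Local rings at closed points are discrete valuation rings. -/
theorem isDiscreteValuationRing_stalk (P : C) (hP : IsClosed ({P} : Set C)) :
    IsDiscreteValuationRing (C.presheaf.stalk P) :=
  isDiscreteValuationRing_stalk_of hD hF P hP

include c hD hF in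
/-- **S2d.** Every local ring of `C` is a valuation ring of the function field: for
`f ∈ K(C)`, either `f ∈ O_P` or `f⁻¹ ∈ m_P`. -/
theorem mem_range_or_exists_mem_maximalIdeal (P : C) (f : C.functionField) :
    f ∈ Set.range (algebraMap (C.presheaf.stalk P) C.functionField) ∨
      ∃ t ∈ IsLocalRing.maximalIdeal (C.presheaf.stalk P),
        algebraMap (C.presheaf.stalk P) C.functionField t * f = 1 := by
  haveI := jacobsonSpace_of_locallyOfFiniteType c
  exact mem_range_or_exists_mem_maximalIdeal_of hD hF P f

include c hD in
/-- **S2e.** A proper closed subset of `C` is a finite set of closed points. -/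
theorem finite_of_isClosed_of_ne_univ {Z : Set C} (hZ : IsClosed Z) (hne : Z ≠ Set.univ) :
    Z.Finite ∧ ∀ P ∈ Z, IsClosed ({P} : Set C) := by
  haveI := jacobsonSpace_of_locallyOfFiniteType c
  haveI : IsNoetherian C := isNoetherian_of_finiteType c
  exact finite_of_isClosed_of_ne_univ_of hD hZ hne

end Fermat.Agent.S25.H327
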