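import Mathlib

/-!
# S25 / CURVE leaf S2 (helper327): points and local rings of a curve — hypothesis-explicit core

Mathlib only.  `C` is an integral scheme with Jacobson underlying space such that the sections
over every nonempty affine open form a Dedekind domain which is not a field (what leaf S1
provides for the curve of S25).
-/

set_option autoImplicit false
set_option linter.style.haveILetI false
set_option linter.unusedSectionVars false

universe u

open CategoryTheory AlgebraicGeometry TopologicalSpace

namespace Fermat.Agent.S25.H327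

variable {C : Scheme.{u}} [IsIntegral C]

/-- The generic point of `C` is the image of the zero ideal under `fromSpec`. -/
theorem fromSpec_eq_genericPoint_iff {U : C.Opens} (hU : IsAffineOpen U) [Nonempty U]
    (p : Spec Γ(C, U)) : hU.fromSpec p = genericPoint C ↔ p.asIdeal = ⊥ := by
  have hgen : hU.fromSpec (genericPoint (Spec Γ(C, U))) = genericPoint C :=
    genericPoint_eq_of_isOpenImmersion hU.fromSpec
  have hbot : genericPoint (Spec Γ(C, U)) = (⊥ : PrimeSpectrum Γ(C, U)) :=
    genericPoint_eq_bot_of_affine _
  constructor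
  · intro h
    have := hU.fromSpec.isOpenEmbedding.injective (h.trans hgen.symm)
    rw [this, hbot]
    rfl
  · intro h
    have : p = genericPoint (Spec Γ(C, U)) := by
      rw [hbot]
      exact PrimeSpectrum.ext h
    rw [this, hgen]

/-- Every point lies in an affine open. -/
theorem exists_isAffineOpen_mem (P : C) : ∃ U : C.Opens, IsAffineOpen U ∧ P ∈ U := by
  obtain ⟨_, ⟨U, hU, rfl⟩, hPU, -⟩ :=
    C.isBasis_affineOpens.exists_subset_of_mem_open (Set.mem_univ P) isOpen_univ
  exact ⟨U, hU, hPU⟩

section

variable (hD : ∀ U : C.Opens, IsAffineOpen U → Nonempty U → IsDedekindDomain Γ(C, U))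
  (hF : ∀ U : C.Opens, IsAffineOpen U → Nonempty U → ¬ IsField Γ(C, U))

include hD in
/-- **S2a (core).** Every point of `C` is closed or the generic point. -/
theorem isClosed_singleton_or_eq_genericPoint_of [JacobsonSpace C] (P : C) :
    IsClosed ({P} : Set C) ∨ P = genericPoint C := by
  obtain ⟨U, hU, hPU⟩ := exists_isAffineOpen_mem P
  haveI : Nonempty U := ⟨⟨P, hPU⟩⟩
  haveI := hD U hU inferInstance
  set p := hU.primeIdealOf ⟨P, hPU⟩ with hp
  have hpP : hU.fromSpec p = P := hU.fromSpec_primeIdealOf ⟨P, hPU⟩
  by_cases h0 : p.asIdeal = ⊥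
  · right
    rw [← hpP]
    exact (fromSpec_eq_genericPoint_iff hU p).mpr h0
  · left
    have hmax : p.asIdeal.IsMaximal := Ideal.IsPrime.isMaximal p.2 h0
    have hcl : p ∈ closedPoints (Spec Γ(C, U)) :=
      (PrimeSpectrum.isClosed_singleton_iff_isMaximal p).mpr hmax
    rw [← hU.fromSpec.isOpenEmbedding.preimage_closedPoints] at hcl
    have : hU.fromSpec p ∈ closedPoints C := hcl
    rwa [hpP] at this

include hF in
/-- **S2b (core).** The generic point is not closed. -/
theorem not_isClosed_singleton_genericPoint_of :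
    ¬ IsClosed ({genericPoint C} : Set C) := by
  intro hcl
  obtain ⟨U, hU, hPU⟩ := exists_isAffineOpen_mem (genericPoint C)
  haveI : Nonempty U := ⟨⟨_, hPU⟩⟩
  obtain ⟨q, hq0, hq⟩ := Ring.not_isField_iff_exists_prime.mp (hF U hU inferInstance)
  let Q : Spec Γ(C, U) := ⟨q, hq⟩
  have hspec : hU.fromSpec Q ∈ closure ({genericPoint C} : Set C) := by
    rw [(genericPoint_spec C).def]
    trivial
  rw [hcl.closure_eq, Set.mem_singleton_iff] at hspec
  exact hq0 ((fromSpec_eq_genericPoint_iff hU Q).mp hspec)

include hD hF in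
/-- **S2c (core).** Local rings at closed points are discrete valuation rings. -/
theorem isDiscreteValuationRing_stalk_of (P : C) (hP : IsClosed ({P} : Set C)) :
    IsDiscreteValuationRing (C.presheaf.stalk P) := by
  obtain ⟨U, hU, hPU⟩ := exists_isAffineOpen_mem P
  haveI : Nonempty U := ⟨⟨P, hPU⟩⟩
  haveI := hD U hU inferInstance
  set p := hU.primeIdealOf ⟨P, hPU⟩ with hp
  have hpP : hU.fromSpec p = P := hU.fromSpec_primeIdealOf ⟨P, hPU⟩
  have h0 : p.asIdeal ≠ ⊥ := by
    intro h0
    have : P = genericPoint C := by
      rw [← hpP]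
      exact (fromSpec_eq_genericPoint_iff hU p).mpr h0
    exact not_isClosed_singleton_genericPoint_of hF (this ▸ hP)
  letI := TopCat.Presheaf.algebra_section_stalk C.presheaf (⟨P, hPU⟩ : U)
  haveI : IsLocalization.AtPrime (C.presheaf.stalk P) p.asIdeal :=
    hU.isLocalization_stalk ⟨P, hPU⟩
  exact IsLocalization.AtPrime.isDiscreteValuationRing_of_dedekind_domain Γ(C, U) h0
    (C.presheaf.stalk P)

end

end Fermat.Agent.S25.H327

namespace Fermat.Agent.S25.H327

variable {C : Scheme.{u}} [IsIntegral C]

/-- At the generic point the map to the function field is surjective. -/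
theorem surjective_algebraMap_stalk_of_eq_genericPoint (P : C) (hP : P = genericPoint C) :
    Function.Surjective (algebraMap (C.presheaf.stalk P) C.functionField) := by
  subst hP
  intro f
  refine ⟨f, ?_⟩
  change (C.presheaf.stalkSpecializes _).hom f = f
  have := TopCat.Presheaf.stalkSpecializes_refl C.presheaf (genericPoint C)
  exact congrArg (fun φ => φ.hom f) this

section

variable (hD : ∀ U : C.Opens, IsAffineOpen U → Nonempty U → IsDedekindDomain Γ(C, U))
  (hF : ∀ U : C.Opens, IsAffineOpen U → Nonempty U → ¬ IsField Γ(C, U))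

include hD hF in
/-- **S2d (core).** Every local ring of `C` is a valuation ring of the function field: for
`f ∈ K(C)`, either `f ∈ O_P` or `f⁻¹ ∈ m_P`. -/
theorem mem_range_or_exists_mem_maximalIdeal_of [JacobsonSpace C] (P : C)
    (f : C.functionField) :
    f ∈ Set.range (algebraMap (C.presheaf.stalk P) C.functionField) ∨
      ∃ t ∈ IsLocalRing.maximalIdeal (C.presheaf.stalk P),
        algebraMap (C.presheaf.stalk P) C.functionField t * f = 1 := by
  rcases isClosed_singleton_or_eq_genericPoint_of hD P with hP | hP
  · haveI := isDiscreteValuationRing_stalk_of hD hF P hP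
    by_cases hf : f ∈ Set.range (algebraMap (C.presheaf.stalk P) C.functionField)
    · exact Or.inl hf
    right
    rcases ValuationRing.isInteger_or_isInteger (C.presheaf.stalk P) f with ⟨r, hr⟩ | ⟨t, ht⟩
    · exact absurd ⟨r, hr⟩ hf
    have hf0 : f ≠ 0 := by
      rintro rfl
      exact hf ⟨0, map_zero _⟩
    have hmul : algebraMap (C.presheaf.stalk P) C.functionField t * f = 1 := by
      rw [ht, inv_mul_cancel₀ hf0]
    refine ⟨t, ?_, hmul⟩
    rw [IsLocalRing.mem_maximalIdeal, mem_nonunits_iff]
    intro hu
    obtain ⟨s, hs⟩ := hu.exists_right_inv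
    apply hf
    refine ⟨s, ?_⟩
    have h1 : algebraMap (C.presheaf.stalk P) C.functionField t *
        algebraMap (C.presheaf.stalk P) C.functionField s = 1 := by
      rw [← map_mul, hs, map_one]
    have ht0 : algebraMap (C.presheaf.stalk P) C.functionField t ≠ 0 := by
      intro h0
      rw [h0, zero_mul] at hmul
      exact zero_ne_one hmul
    exact mul_left_cancel₀ ht0 (h1.trans hmul.symm)
  · exact Or.inl (surjective_algebraMap_stalk_of_eq_genericPoint P hP f)

include hD in
/-- **S2e (core).** A proper closed subset of `C` is a finite set of closed points. -/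
theorem finite_of_isClosed_of_ne_univ_of [JacobsonSpace C] [NoetherianSpace C] {Z : Set C}
    (hZ : IsClosed Z) (hne : Z ≠ Set.univ) :
    Z.Finite ∧ ∀ P ∈ Z, IsClosed ({P} : Set C) := by
  have hgen : genericPoint C ∉ Z := by
    intro h
    apply hne
    rw [Set.eq_univ_iff_forall]
    intro x
    exact ((genericPoint_spec C).mem_closed_set_iff hZ).mp h (Set.mem_univ x)
  have hcl : ∀ P ∈ Z, IsClosed ({P} : Set C) := by
    intro P hP
    rcases isClosed_singleton_or_eq_genericPoint_of hD P with h | rfl
    · exact h
    · exact absurd hP hgen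
  refine ⟨?_, hcl⟩
  obtain ⟨S, hSf, hSc, hSi, rfl⟩ := NoetherianSpace.exists_finite_set_isClosed_irreducible hZ
  refine Set.Finite.sUnion hSf fun t ht => ?_
  obtain ⟨Q, hQ⟩ := QuasiSober.sober (hSi t ht) (hSc t ht)
  have hQt : Q ∈ t := hQ.mem
  have hQcl : IsClosed ({Q} : Set C) := hcl Q ⟨t, ht, hQt⟩
  have : t = {Q} := by
    rw [← hQ.def, hQcl.closure_eq]
  rw [this]
  exact Set.finite_singleton Q

end

end Fermat.Agent.S25.H327
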