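import Fermat.Agent.S25.DefsDict
import Fermat.Agent.S25.H206.FamilyAlgEquivZero
import Fermat.Agent.S25.H327.AbelSurj

/-!
# S25 / DICTDEG (helper327): transport of a Prelude family to the product `C ×ₖ Z`

Let `t : S ⟶ Spec k`, `s : Spec K ⟶ S` a point, `a := fibreAt c t s : C_s ⟶ Spec K` the fibre
curve and `h : T' ⟶ Spec K` a `K`-scheme.  For every `k`-scheme `z : Z ⟶ Spec k` with a
morphism `τ : Z ⟶ T'` compatible with the structure maps there is a canonical morphism
`famMap : C ×ₖ Z ⟶ C_s ×_K T'`; it is functorial in `Z` and compatible with the sections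
induced by `ε`.
-/

set_option autoImplicit false
set_option linter.style.haveILetI false
set_option linter.unusedSectionVars false

universe u

open CategoryTheory CategoryTheory.Limits AlgebraicGeometry AlgebraicGeometry.RelPicard
  NeronModelInfra GoodReductionJacobian

namespace Fermat.Agent.S25.H327

open Fermat.Agent.S25.H206

noncomputable section

variable {k : Type u} [Field k] {C : Scheme.{u}} (c : C ⟶ Spec (CommRingCat.of k))
  (ε : SchemeHomOver (𝟙 (Spec (CommRingCat.of k))) c)
  {S : Scheme.{u}} (t : S ⟶ Spec (CommRingCat.of k))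
  {K : Type u} [Field K] (s : Spec (CommRingCat.of K) ⟶ S)
  {T' : Scheme.{u}} (h : T' ⟶ Spec (CommRingCat.of K))

/-- The structure of a `k`-morphism on `τ ≫ h ≫ s`. -/
def famBase {Z : Scheme.{u}} {z : Z ⟶ Spec (CommRingCat.of k)} (τ : Z ⟶ T')
    (hτ : τ ≫ h ≫ s ≫ t = z) : SchemeHomOver z t :=
  ⟨τ ≫ h ≫ s, by simpa only [Category.assoc] using hτ⟩

/-- The canonical morphism `C ×ₖ Z ⟶ C_s`. -/
def famMapFst {Z : Scheme.{u}} {z : Z ⟶ Spec (CommRingCat.of k)} (τ : Z ⟶ T')
    (hτ : τ ≫ h ≫ s ≫ t = z) : pullback c z ⟶ pullback (pullback.snd c t) s :=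
  pullback.lift (baseChangeSnd c (famBase t s h τ hτ)) (pullback.snd c z ≫ τ ≫ h) (by
    rw [baseChangeSnd_snd]
    simp only [famBase, Category.assoc])

/-- The canonical morphism `C ×ₖ Z ⟶ C_s ×_K T'`. -/
def famMap {Z : Scheme.{u}} {z : Z ⟶ Spec (CommRingCat.of k)} (τ : Z ⟶ T')
    (hτ : τ ≫ h ≫ s ≫ t = z) : pullback c z ⟶ pullback (fibreAt c t s) h :=
  pullback.lift (famMapFst c t s h τ hτ) (pullback.snd c z ≫ τ) (by
    simp only [fibreAt, famMapFst, pullback.lift_snd, Category.assoc])

variable {c t s h}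

@[reassoc]
theorem famMapFst_fst {Z : Scheme.{u}} {z : Z ⟶ Spec (CommRingCat.of k)} (τ : Z ⟶ T')
    (hτ : τ ≫ h ≫ s ≫ t = z) :
    famMapFst c t s h τ hτ ≫ pullback.fst (pullback.snd c t) s =
      baseChangeSnd c (famBase t s h τ hτ) :=
  pullback.lift_fst _ _ _

@[reassoc]
theorem famMapFst_snd {Z : Scheme.{u}} {z : Z ⟶ Spec (CommRingCat.of k)} (τ : Z ⟶ T')
    (hτ : τ ≫ h ≫ s ≫ t = z) :
    famMapFst c t s h τ hτ ≫ pullback.snd (pullback.snd c t) s = pullback.snd c z ≫ τ ≫ h :=
  pullback.lift_snd _ _ _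

@[reassoc]
theorem famMap_fst {Z : Scheme.{u}} {z : Z ⟶ Spec (CommRingCat.of k)} (τ : Z ⟶ T')
    (hτ : τ ≫ h ≫ s ≫ t = z) :
    famMap c t s h τ hτ ≫ pullback.fst (fibreAt c t s) h = famMapFst c t s h τ hτ :=
  pullback.lift_fst _ _ _

@[reassoc]
theorem famMap_snd {Z : Scheme.{u}} {z : Z ⟶ Spec (CommRingCat.of k)} (τ : Z ⟶ T')
    (hτ : τ ≫ h ≫ s ≫ t = z) :
    famMap c t s h τ hτ ≫ pullback.snd (fibreAt c t s) h = pullback.snd c z ≫ τ :=
  pullback.lift_snd _ _ _

/-- Extensionality for morphisms into `C_s ×_K T'`. -/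
theorem fam_hom_ext {W : Scheme.{u}} {f g : W ⟶ pullback (fibreAt c t s) h}
    (h1 : f ≫ pullback.fst (fibreAt c t s) h ≫ pullback.fst (pullback.snd c t) s ≫
        pullback.fst c t =
      g ≫ pullback.fst (fibreAt c t s) h ≫ pullback.fst (pullback.snd c t) s ≫ pullback.fst c t)
    (h2 : f ≫ pullback.snd (fibreAt c t s) h = g ≫ pullback.snd (fibreAt c t s) h) : f = g := by
  have hcond : pullback.fst (fibreAt c t s) h ≫ pullback.snd (pullback.snd c t) s =
      pullback.snd (fibreAt c t s) h ≫ h := pullback.condition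
  have hcond2 : pullback.fst (pullback.snd c t) s ≫ pullback.snd c t =
      pullback.snd (pullback.snd c t) s ≫ s := pullback.condition
  apply pullback.hom_ext _ h2
  apply pullback.hom_ext
  · apply pullback.hom_ext
    · simpa only [Category.assoc] using h1
    · simp only [Category.assoc]
      rw [hcond2, reassoc_of% hcond, reassoc_of% h2]
  · simp only [Category.assoc]
    rw [hcond, reassoc_of% h2]

/-- Functoriality of `famMap` in the test scheme. -/
theorem famMap_comp {Z Z' : Scheme.{u}} {z : Z ⟶ Spec (CommRingCat.of k)}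
    {z' : Z' ⟶ Spec (CommRingCat.of k)} (τ : Z ⟶ T') (hτ : τ ≫ h ≫ s ≫ t = z)
    (ψ : SchemeHomOver z' z) (hτ' : (ψ.1 ≫ τ) ≫ h ≫ s ≫ t = z') :
    famMap c t s h (ψ.1 ≫ τ) hτ' = baseChangeSnd c ψ ≫ famMap c t s h τ hτ := by
  apply fam_hom_ext
  · rw [famMap_fst_assoc, famMapFst_fst_assoc, baseChangeSnd_fst, Category.assoc,
      famMap_fst_assoc, famMapFst_fst_assoc, baseChangeSnd_fst, baseChangeSnd_fst]
  · rw [famMap_snd, Category.assoc, famMap_snd, baseChangeSnd_snd_assoc]

variable (c t s h)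

/-- The section of the fibre curve `C_s ⟶ Spec K` induced by `ε`. -/
def fibreSection : Spec (CommRingCat.of K) ⟶ pullback (pullback.snd c t) s :=
  pullback.lift (s ≫ rigSection c t ε) (𝟙 _) (by
    simp only [rigSection, Category.assoc, pullback.lift_snd, Category.comp_id, Category.id_comp])

/-- The section of `C_s ×_K T' ⟶ T'` induced by `ε`. -/
def famSection : T' ⟶ pullback (fibreAt c t s) h :=
  pullback.lift (h ≫ fibreSection c ε t s) (𝟙 _) (by
    simp only [fibreAt, fibreSection, Category.assoc, pullback.lift_snd, Category.comp_id,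
      Category.id_comp])

variable {c t s h}

/-- Compatibility of `famMap` with the sections induced by `ε`. -/
theorem rigSection_famMap {Z : Scheme.{u}} {z : Z ⟶ Spec (CommRingCat.of k)} (τ : Z ⟶ T')
    (hτ : τ ≫ h ≫ s ≫ t = z) :
    rigSection c z ε ≫ famMap c t s h τ hτ = τ ≫ famSection c ε t s h := by
  apply fam_hom_ext
  · simp only [Category.assoc]
    rw [famMap_fst_assoc, famMapFst_fst_assoc, baseChangeSnd_fst]
    simp only [famSection, fibreSection, rigSection, Category.assoc, pullback.lift_fst,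
      pullback.lift_fst_assoc]
    rw [← hτ]
    simp only [Category.assoc]
  · rw [Category.assoc, famMap_snd]
    simp only [famSection, rigSection, Category.assoc, pullback.lift_snd,
      pullback.lift_snd_assoc, Category.comp_id, Category.id_comp]

end

end Fermat.Agent.S25.H327
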